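import Fermat.Agent.ThreeTorsionBound.Bound
import Fermat.Agent.BrumerSilverman.Curves

/-!
# The exponent `1/3` in the descent

The field of a square root of `k` has discriminant at most four times the product of the primes of
`6 k`, so its classes killed by three are `O_ε` of that product to the power `1/3 + ε`.
-/

set_option autoImplicit false
set_option linter.style.haveILetI false

noncomputable section

open NumberField Module
open FA.BrumerSilverman Fermat.Agent.Reflection

namespace FA.ThreeTorsionBound

/-- **The exponent `1/3` is admissible.** -/
theorem torsionExponent_third : TorsionExponent (1 / 3) := fun ε hε => by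
  obtain ⟨C, hC, h⟩ := exists_three_torsion_bound hε
  refine ⟨C * (4 : ℝ) ^ (1 / 3 + ε), by positivity, fun K _ _ k S hK hk hsq hS => ?_⟩
  rw [← torsCard_eq, mul_assoc, ← Real.mul_rpow (by norm_num) (Nat.cast_nonneg _)]
  refine (h K hK).trans (mul_le_mul_of_nonneg_left
    (Real.rpow_le_rpow (Nat.cast_nonneg _) ?_ (by positivity)) hC)
  exact_mod_cast natAbs_discr_le hK hk hsq S hS

end FA.ThreeTorsionBound
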