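import Fermat.Agent.ThreeTorsionBound.Split
import Fermat.Agent.EllenbergVenkatesh.Injection
import Fermat.Agent.Reflection.Quadratic
import Fermat.Agent.Root.SummarySiegelWalfisz
import Mathlib.NumberTheory.LegendreSymbol.QuadraticChar.Basic

/-!
# The theorem of Ellenberg and Venkatesh for quadratic fields

The primes `p ≡ 2 (mod 3)` up to a small multiple of `|d| ^ (1/6)` split in `K` or in its twin, so
the lemma of small split primes bounds `#Cl[3]` of one of them, and reflection that of both.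
-/

set_option autoImplicit false
set_option linter.style.haveILetI false

noncomputable section

open NumberField Module Finset Filter
open FA.BrumerSilverman Fermat.Agent.Reflection
open scoped Classical Topology

namespace FA.ThreeTorsionBound

/-- The primes `p ≡ 2 (mod 3)` up to `Y`. -/
def primesTwoModThree (Y : ℝ) : Finset ℕ :=
  (Finset.Icc 1 ⌊Y⌋₊).filter fun p : ℕ => p.Prime ∧ (p : ZMod 3) = 2

theorem exists_prime_count {δ : ℝ} (hδ : 0 < δ) : ∃ a Y₀ : ℝ, 0 < a ∧
    ∀ Y : ℝ, Y₀ ≤ Y → a * Y ^ (1 - δ) ≤ ((primesTwoModThree Y).card : ℝ) := by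
  obtain ⟨c, C, hc, hC, hθ⟩ := FA.SiegelWalfisz.Summary.siegel_walfisz_theta 1 one_pos
  obtain ⟨K, hK, hg⟩ := FA.SiegelWalfisz.exp_gauge_le 1 one_pos hc
  set L := max 3 (4 * C * K)
  refine ⟨δ / 4, Real.exp L, by positivity, fun Y hY => ?_⟩
  have hL3 : 3 ≤ L := le_max_left _ _
  have hY2 : 2 ≤ Y := by linarith [Real.add_one_le_exp L]
  have hY0 : 0 < Y := by linarith
  have hlog : L ≤ Real.log Y := (Real.le_log_iff_exp_le hY0).mpr hY
  have hlog0 : 0 < Real.log Y := by linarith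
  have hu : IsUnit (2 : ZMod 3) := isUnit_iff_exists_inv.mpr ⟨2, by decide⟩
  have h := hθ 3 2 hu Y hY2 (by rw [Real.rpow_one]; push_cast; linarith)
  rw [show Nat.totient 3 = 2 by decide] at h
  have hgY := hg Y hY2
  simp only [FA.SiegelWalfisz.gauge, Real.rpow_one] at hgY
  have h1 : C * Y * Real.exp (-(c * Real.log Y ^ (1 / 15 : ℝ))) ≤ Y / 4 := by
    refine (mul_le_mul_of_nonneg_left hgY (by positivity)).trans ?_
    rw [← mul_div_assoc, div_le_iff₀ hlog0]
    nlinarith [le_max_right (3 : ℝ) (4 * C * K)]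
  have h2 : Y / 4 ≤ ∑ p ∈ primesTwoModThree Y, Real.log p := by
    have := (abs_le.mp h).1
    push_cast at this
    unfold primesTwoModThree
    linarith
  have h3 : ∑ p ∈ primesTwoModThree Y, Real.log p ≤
      (primesTwoModThree Y).card * Real.log Y := by
    refine (sum_le_card_nsmul _ _ (Real.log Y) fun p hp => ?_).trans_eq (nsmul_eq_mul _ _)
    obtain ⟨hp1, hp2⟩ := mem_filter.mp hp
    refine Real.log_le_log (Nat.cast_pos.mpr hp2.1.pos) ?_
    exact (Nat.cast_le.mpr (Finset.mem_Icc.mp hp1).2).trans (Nat.floor_le hY0.le)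
  have h4 : Real.log Y ≤ Y ^ δ / δ := Real.log_le_rpow_div hY0.le hδ
  have h5 : Y / 4 ≤ (primesTwoModThree Y).card * (Y ^ δ / δ) :=
    (h2.trans h3).trans (mul_le_mul_of_nonneg_left h4 (Nat.cast_nonneg _))
  rw [Real.rpow_sub hY0, Real.rpow_one]
  field_simp at h5 ⊢
  linarith

/-- `-3` is no square modulo a prime `p ≡ 2 (mod 3)` other than `2`. -/
theorem not_isSquare_neg_three_mod {p : ℕ} [hp : Fact p.Prime] (h2 : p ≠ 2) (h : p % 3 = 2) :
    ¬ IsSquare (-3 : ZMod p) := by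
  rintro ⟨s, hs⟩
  have h2' : (2 : ZMod p) ≠ 0 := fun e => h2 ((Nat.prime_dvd_prime_iff_eq hp.out Nat.prime_two).mp
    ((ZMod.natCast_eq_zero_iff _ _).mp (by simpa using e)))
  have h3' : (3 : ZMod p) ≠ 0 := fun e => by
    have := (Nat.prime_dvd_prime_iff_eq hp.out Nat.prime_three).mp
      ((ZMod.natCast_eq_zero_iff _ _).mp (by simpa using e))
    omega
  set u : ZMod p := (s - 1) / 2
  have hu : 2 * u = s - 1 := by simp only [u]; field_simp
  have hu3 : u ^ 3 = 1 := by
    refine mul_left_cancel₀ (pow_ne_zero 3 h2') ?_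
    rw [← mul_pow, hu]
    linear_combination -(s - 3) * hs
  have hu1 : u ≠ 1 := fun e => by
    rw [e, mul_one] at hu
    have e12 : (2 : ZMod p) * 2 * 3 = 0 := by linear_combination (3 + s) * hu - hs
    exact mul_ne_zero (mul_ne_zero h2' h2') h3' e12
  have hord : orderOf u = 3 := orderOf_eq_prime hu3 hu1
  have hu0 : u ≠ 0 := by rintro e; rw [e] at hu3; simp at hu3
  have := ZMod.orderOf_dvd_card_sub_one hu0
  rw [hord] at this
  omega

/-- One of `d`, `-3 d` is a square modulo such a prime. -/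
theorem exists_root_mod {d : ℤ} {p : ℕ} [hp : Fact p.Prime] (h2 : p ≠ 2) (h : p % 3 = 2)
    (hd : ¬ (p : ℤ) ∣ d) :
    (∃ x : ℤ, (p : ℤ) ∣ x ^ 2 - d) ∨ ∃ x : ℤ, (p : ℤ) ∣ x ^ 2 - -3 * d := by
  have hd0 : (d : ZMod p) ≠ 0 := fun e => hd ((ZMod.intCast_zmod_eq_zero_iff_dvd d p).mp e)
  have key : ∀ e : ℤ, IsSquare (e : ZMod p) → ∃ x : ℤ, (p : ℤ) ∣ x ^ 2 - e := by
    rintro e ⟨r, hr⟩
    obtain ⟨x, rfl⟩ := ZMod.intCast_surjective r
    exact ⟨x, (ZMod.intCast_zmod_eq_zero_iff_dvd _ p).mp (by push_cast; rw [hr]; ring)⟩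
  by_contra hcon
  push Not at hcon
  obtain ⟨ha, hb⟩ := hcon
  have ha' : ¬ IsSquare (d : ZMod p) := fun h' => by
    obtain ⟨x, hx⟩ := key d h'; exact ha x hx
  have hb' : ¬ IsSquare ((-3 * d : ℤ) : ZMod p) := fun h' => by
    obtain ⟨x, hx⟩ := key _ h'; exact hb x hx
  rw [← quadraticChar_neg_one_iff_not_isSquare] at ha' hb'
  refine not_isSquare_neg_three_mod h2 h ?_
  have h3 : (-3 : ZMod p) ≠ 0 := by
    rw [neg_ne_zero]
    intro e
    have := (Nat.prime_dvd_prime_iff_eq hp.out Nat.prime_three).mp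
      ((ZMod.natCast_eq_zero_iff _ _).mp (by simpa using e))
    omega
  have hm : quadraticChar (ZMod p) (-3 * (d : ZMod p) * d) = 1 := by
    push_cast at hb'
    rw [map_mul, hb', ha']
    norm_num
  obtain ⟨r, hr⟩ := (quadraticChar_one_iff_isSquare (mul_ne_zero (mul_ne_zero h3 hd0) hd0)).mp hm
  refine ⟨r / d, ?_⟩
  field_simp
  linear_combination hr

theorem torsCard_eq (K : Type) [Field K] [NumberField K] :
    torsCard 3 K = Nat.card {x : ClassGroup (𝓞 K) // x ^ 3 = 1} := rfl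

theorem torsCard_le_classNumber (K : Type) [Field K] [NumberField K] :
    torsCard 3 K ≤ classNumber K := by
  rw [torsCard_eq, classNumber, ← Nat.card_eq_fintype_card]
  exact Nat.card_le_card_of_injective Subtype.val Subtype.val_injective

theorem two_pow_card_primeFactors_le {n : ℕ} (hn : n ≠ 0) : 2 ^ n.primeFactors.card ≤ n :=
  (Finset.pow_card_le_prod _ _ _ fun _ hp => (Nat.prime_of_mem_primeFactors hp).two_le).trans
    (Nat.le_of_dvd (Nat.pos_of_ne_zero hn) (Nat.prod_primeFactors_dvd n))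

/-- **`#Cl(K)[3] = O (|d| ^ (1/3 + ε))`.** -/
theorem exists_three_torsion_bound {ε : ℝ} (hε : 0 < ε) : ∃ C : ℝ, 0 ≤ C ∧
    ∀ (K : Type) [Field K] [NumberField K], finrank ℚ K = 2 →
      (torsCard 3 K : ℝ) ≤ C * ((discr K).natAbs : ℝ) ^ (1 / 3 + ε) := by
  set δ : ℝ := min ε (1 / 2)
  have hδ : 0 < δ := lt_min hε (by norm_num)
  have hδε : δ ≤ ε := min_le_left _ _
  have hδ2 : δ ≤ 1 / 2 := min_le_right _ _
  obtain ⟨c, hc, -, hsmall⟩ :=
    EllenbergVenkatesh.exists_small_split_bound 2 3 le_rfl (by norm_num)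
  obtain ⟨C, hC, hsmall⟩ := hsmall (ε / 4) (by linarith)
  obtain ⟨A, hA, hclass⟩ := exists_classNumber_bound (one_pos : (0 : ℝ) < 1)
  obtain ⟨a, Y₀, ha, hcount⟩ := exists_prime_count hδ
  -- `D` beyond which the twin and the count are available
  set e : ℝ := (1 - δ) / 6
  have he : 1 / 12 ≤ e := by simp only [e]; linarith
  set b : ℝ := a * (c / (72 : ℝ) ^ ((1 : ℝ) / 6)) ^ (1 - δ)
  have hb : 0 < b := by positivity
  have hev : ∀ᶠ D : ℝ in atTop, 25 ≤ D ∧ 1 ≤ D ∧
      Y₀ ≤ c / (72 : ℝ) ^ ((1 : ℝ) / 6) * D ^ ((1 : ℝ) / 6) ∧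
      4 * (24 + 1) ≤ b * D ^ ((1 : ℝ) / 24) := by
    refine (eventually_ge_atTop 25).and ((eventually_ge_atTop 1).and (Filter.Eventually.and ?_ ?_))
    · exact ((tendsto_rpow_atTop (by norm_num : (0 : ℝ) < 1 / 6)).const_mul_atTop
        (by positivity)).eventually_ge_atTop _
    · exact ((tendsto_rpow_atTop (by norm_num : (0 : ℝ) < 1 / 24)).const_mul_atTop
        hb).eventually_ge_atTop _
  obtain ⟨D₀, hD₀⟩ := eventually_atTop.mp hev
  refine ⟨12 * C * (72 : ℝ) ^ (1 / 2 + ε / 4) / b + A * (6 * max D₀ 1) ^ (1 / 2 + (1 : ℝ)),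
    by positivity, fun K _ _ hK => ?_⟩
  set D : ℝ := ((discr K).natAbs : ℝ)
  have hD1 : 1 ≤ D := by
    simp only [D]; exact_mod_cast Int.natAbs_pos.mpr (discr_ne_zero K)
  obtain ⟨hdsq, s, hs⟩ := exists_sqrt_discr hK
  have hDpow : 1 ≤ D ^ (1 / 3 + ε) := Real.one_le_rpow hD1 (by linarith)
  rcases le_or_gt D (max D₀ 1) with hsm | hlarge
  · -- small discriminants, `-3` among them
    have h1 : (torsCard 3 K : ℝ) ≤ A * (supportProd (discr K) : ℝ) ^ (1 / 2 + (1 : ℝ)) :=
      (Nat.cast_le.mpr (torsCard_le_classNumber K)).trans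
        (hclass K _ s hK (discr_ne_zero K) hdsq hs)
    have h2 : (supportProd (discr K) : ℝ) ≤ 6 * max D₀ 1 := by
      refine (supportProd_le (discr_ne_zero K)).trans (mul_le_mul_of_nonneg_left ?_ (by norm_num))
      rwa [← Int.cast_abs, ← Nat.cast_natAbs]
    refine h1.trans ?_
    rw [add_mul]
    refine le_add_of_nonneg_of_le (by positivity) ?_
    exact (mul_le_mul_of_nonneg_left (Real.rpow_le_rpow (Nat.cast_nonneg _) h2 (by norm_num))
      hA).trans (le_mul_of_one_le_right (by positivity) hDpow)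
  -- large discriminants
  obtain ⟨h25, -, hY, hω⟩ := hD₀ D ((le_max_left _ _).trans hlarge.le)
  have hns : ¬ IsSquare (-3 * discr K) := fun h => by
    have := natAbs_discr_le_of_isSquare hK h
    have : D ≤ 24 := by simp only [D]; exact_mod_cast this
    linarith
  obtain ⟨K', _, y, hK', hy⟩ := exists_field hns
  obtain ⟨hle', hge'⟩ := twin_discr hK hK' hns hy
  set D' : ℝ := ((discr K').natAbs : ℝ)
  have hle : D' ≤ 72 * D := by simp only [D, D']; exact_mod_cast hle'
  have hge : D ≤ 72 * D' := by simp only [D, D']; exact_mod_cast hge'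
  -- reflection
  have hrefl : torsCard 3 K ≤ 3 * torsCard 3 K' ∧ torsCard 3 K' ≤ 3 * torsCard 3 K := by
    rcases (discr_ne_zero K).lt_or_gt with hneg | hpos
    · obtain ⟨h1, h2⟩ := scholz (K := K') (K' := K) hK' hK (D := ((-3 * discr K : ℤ) : ℚ))
        (x := y) (y := 3 * s) (by exact_mod_cast (show (0 : ℤ) < -3 * discr K by omega))
        (fun h => hns (Rat.isSquare_intCast_iff.mp h)) (by simpa using hy)
        (by rw [mul_pow, hs]; simp; ring)
      omega
    · obtain ⟨h1, h2⟩ := scholz hK hK' (D := ((discr K : ℤ) : ℚ)) (x := s) (y := y)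
        (by exact_mod_cast hpos) (fun h => hdsq (Rat.isSquare_intCast_iff.mp h))
        (by simpa using hs) (by simpa using hy)
      omega
  set Y : ℝ := c / (72 : ℝ) ^ ((1 : ℝ) / 6) * D ^ ((1 : ℝ) / 6)
  have hYpos : 0 < Y := by positivity
  set G : Finset ℕ := (primesTwoModThree Y).filter fun p : ℕ => ¬ (p : ℤ) ∣ 6 * discr K
  have hGmem : ∀ p ∈ G, p.Prime ∧ p ≠ 2 ∧ p % 3 = 2 ∧ ¬ (p : ℤ) ∣ discr K ∧ (p : ℝ) ≤ Y := by
    intro p hp
    obtain ⟨hp1, hp6⟩ := mem_filter.mp hp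
    obtain ⟨hpI, hpp, hp3⟩ := mem_filter.mp hp1
    refine ⟨hpp, fun e => hp6 (e ▸ Dvd.dvd.mul_right ⟨3, by norm_num⟩ _), ?_,
      fun h => hp6 (h.mul_left 6),
      (Nat.cast_le.mpr (Finset.mem_Icc.mp hpI).2).trans (Nat.floor_le hYpos.le)⟩
    have := congrArg ZMod.val hp3
    rw [ZMod.val_natCast] at this
    exact this
  set GK := G.filter fun p : ℕ => ∃ x : ℤ, (p : ℤ) ∣ x ^ 2 - discr K
  set GK' := G.filter fun p : ℕ => ∃ x : ℤ, (p : ℤ) ∣ x ^ 2 - -3 * discr K
  have hG : G.card ≤ GK.card + GK'.card := by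
    refine (card_le_card fun p hp => ?_).trans (card_union_le _ _)
    obtain ⟨hpp, hp2, hp3, hpd, -⟩ := hGmem p hp
    haveI := Fact.mk hpp
    rcases exists_root_mod hp2 hp3 hpd with h | h
    · exact mem_union_left _ (mem_filter.mpr ⟨hp, h⟩)
    · exact mem_union_right _ (mem_filter.mpr ⟨hp, h⟩)
  -- the primes of the count
  have hcountG : b * D ^ e / 2 ≤ (G.card : ℝ) := by
    have hY' := hcount Y hY
    have e1 : a * Y ^ (1 - δ) = b * D ^ e := by
      simp only [Y, b, e]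
      rw [Real.mul_rpow (by positivity) (by positivity), ← Real.rpow_mul (by linarith)]
      ring_nf
    have hbad : ((primesTwoModThree Y).card : ℝ) ≤ G.card + 2 * (24 + 1) * D ^ ((1 : ℝ) / 24) := by
      have h1 : (primesTwoModThree Y).card ≤ G.card + (6 * discr K).natAbs.primeFactors.card := by
        refine (card_le_card fun p hp => ?_).trans (card_union_le _ _)
        by_cases hd : (p : ℤ) ∣ 6 * discr K
        · exact mem_union_right _ ((mem_supportPrimes (discr_ne_zero K)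
            (mem_filter.mp hp).2.1).mpr hd)
        · exact mem_union_left _ (mem_filter.mpr ⟨hp, hd⟩)
      have h2 := two_pow_card_primeFactors_le (n := (6 * discr K).natAbs)
        (Int.natAbs_ne_zero.mpr (mul_ne_zero (by norm_num) (discr_ne_zero K)))
      set w := (6 * discr K).natAbs.primeFactors.card
      have h3 : (w : ℝ) * Real.log 2 ≤ Real.log (6 * D) := by
        rw [← Real.log_pow]
        refine Real.log_le_log (by positivity) ?_
        have : ((6 * discr K).natAbs : ℝ) = 6 * D := by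
          simp only [D]; rw [Int.natAbs_mul]; push_cast; rfl
        rw [← this]
        exact_mod_cast h2
      have h4 : Real.log (6 * D) ≤ (24 + 1) * D ^ ((1 : ℝ) / 24) + 1 := by
        rw [Real.log_mul (by norm_num) (by linarith)]
        have h5 := one_add_log_le hD1 (by norm_num : (0 : ℝ) < 1 / 24)
        have h6 : Real.log 6 ≤ 2 := by
          rw [Real.log_le_iff_le_exp (by norm_num)]
          have := Real.exp_one_gt_d9
          rw [show (2 : ℝ) = 1 + 1 by norm_num, Real.exp_add]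
          nlinarith
        have h7 : (1 : ℝ) + 1 / (1 / 24) = 24 + 1 := by norm_num
        rw [h7] at h5
        linarith
      have h8 : (1 : ℝ) ≤ D ^ ((1 : ℝ) / 24) := Real.one_le_rpow hD1 (by norm_num)
      have h9 : (0.69 : ℝ) ≤ Real.log 2 := by linarith [Real.log_two_gt_d9]
      have h10 : (w : ℝ) ≤ 2 * (24 + 1) * D ^ ((1 : ℝ) / 24) := by
        nlinarith [mul_le_mul_of_nonneg_left h9 (Nat.cast_nonneg (α := ℝ) w)]
      have h1' : ((primesTwoModThree Y).card : ℝ) ≤ G.card + w := by exact_mod_cast h1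
      linarith
    have he' : D ^ ((1 : ℝ) / 24) * D ^ ((1 : ℝ) / 24) ≤ D ^ e := by
      rw [← Real.rpow_add (by linarith)]
      exact Real.rpow_le_rpow_of_exponent_le hD1 (by linarith)
    have h11 := mul_le_mul_of_nonneg_right hω
      (show (0 : ℝ) ≤ D ^ ((1 : ℝ) / 24) by positivity)
    have h12 : b * D ^ ((1 : ℝ) / 24) * D ^ ((1 : ℝ) / 24) ≤ b * D ^ e := by
      rw [mul_assoc]; exact mul_le_mul_of_nonneg_left he' hb.le
    rw [e1] at hY'
    linarith
  -- the field with half of them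
  have key : ∀ (F : Type) [Field F] [NumberField F], finrank ℚ F = 2 → ∀ (m : ℤ) (r : F),
      r ^ 2 = (m : F) → ¬ IsSquare m → ((discr F).natAbs : ℝ) ≤ 72 * D →
      D ≤ 72 * ((discr F).natAbs : ℝ) → ∀ T : Finset ℕ, T ⊆ G →
      (∀ p ∈ T, ¬ (p : ℤ) ∣ 2 * m ∧ ∃ x : ℤ, (p : ℤ) ∣ x ^ 2 - m) → G.card ≤ 2 * T.card →
      (torsCard 3 F : ℝ) ≤ 4 * C * (72 : ℝ) ^ (1 / 2 + ε / 4) / b * D ^ (1 / 3 + ε) := by
    intro F _ _ hF m r hr hm hF1 hF2 T hTG hT hhalf
    have hP : ∀ p ∈ T, ∃ P : Ideal (𝓞 F),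
        EllenbergVenkatesh.IsSplitPrime P ∧ Ideal.absNorm P = p := fun p hp => by
      obtain ⟨x, hx⟩ := (hT p hp).2
      exact exists_split_prime hF (hGmem p (hTG hp)).1 (hT p hp).1 hm hx hr
    choose! P hP1 hP2 using hP
    have h1 := hsmall F hF (T.image P) fun Q hQ => by
      obtain ⟨p, hp, rfl⟩ := mem_image.mp hQ
      refine ⟨hP1 p hp, ?_⟩
      rw [hP2 p hp]
      refine (hGmem p (hTG hp)).2.2.2.2.trans ?_
      rw [show |(discr F : ℝ)| = ((discr F).natAbs : ℝ) by rw [Nat.cast_natAbs, Int.cast_abs]]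
      rw [show ((1 : ℝ) / ((2 * 3 * (2 - 1) : ℕ) : ℝ)) = 1 / 6 by norm_num]
      simp only [Y]
      rw [div_mul_eq_mul_div, div_le_iff₀ (by positivity), mul_assoc,
        ← Real.mul_rpow (Nat.cast_nonneg _) (by norm_num)]
      refine mul_le_mul_of_nonneg_left (Real.rpow_le_rpow (by linarith) ?_ (by norm_num)) hc.le
      linarith
    rw [card_image_of_injOn (fun p hp q hq e => by rw [← hP2 p hp, e, hP2 q hq]),
      show |(discr F : ℝ)| = ((discr F).natAbs : ℝ) by rw [Nat.cast_natAbs, Int.cast_abs],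
      ← torsCard_eq] at h1
    have h2 : b * D ^ e / 4 ≤ (T.card : ℝ) := by
      have : (G.card : ℝ) ≤ 2 * T.card := by exact_mod_cast hhalf
      linarith
    have h3 : (torsCard 3 F : ℝ) * (b * D ^ e / 4) ≤
        C * ((72 : ℝ) ^ (1 / 2 + ε / 4) * D ^ (1 / 2 + ε / 4)) := by
      refine (mul_le_mul_of_nonneg_left h2 (Nat.cast_nonneg _)).trans (h1.trans ?_)
      rw [← Real.mul_rpow (by norm_num) (by linarith)]
      exact mul_le_mul_of_nonneg_left (Real.rpow_le_rpow (Nat.cast_nonneg _) hF1 (by positivity)) hC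
    have h4 : D ^ (1 / 2 + ε / 4) ≤ D ^ (1 / 3 + ε) * D ^ e := by
      rw [← Real.rpow_add (by linarith)]
      refine Real.rpow_le_rpow_of_exponent_le hD1 ?_
      simp only [e]
      linarith
    have h5 : (torsCard 3 F : ℝ) * (b * D ^ e / 4) ≤
        4 * C * (72 : ℝ) ^ (1 / 2 + ε / 4) / b * D ^ (1 / 3 + ε) * (b * D ^ e / 4) := by
      refine h3.trans (le_of_le_of_eq (mul_le_mul_of_nonneg_left
        (mul_le_mul_of_nonneg_left h4 (by positivity)) hC) ?_)
      field_simp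
    exact le_of_mul_le_mul_right h5 (by positivity)
  have hkey' : ∀ F : ℕ, (F : ℝ) ≤ 4 * C * (72 : ℝ) ^ (1 / 2 + ε / 4) / b * D ^ (1 / 3 + ε) →
      torsCard 3 K ≤ 3 * F → (torsCard 3 K : ℝ) ≤
      (12 * C * (72 : ℝ) ^ (1 / 2 + ε / 4) / b + A * (6 * max D₀ 1) ^ (1 / 2 + (1 : ℝ))) *
        D ^ (1 / 3 + ε) := by
    intro F hF h3
    have h3' : (torsCard 3 K : ℝ) ≤ 3 * F := by exact_mod_cast h3
    rw [add_mul]
    refine le_add_of_le_of_nonneg ?_ (by positivity)
    refine h3'.trans (le_of_le_of_eq (mul_le_mul_of_nonneg_left hF (by norm_num)) (by ring))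
  rcases Nat.le_total GK'.card GK.card with h | h
  · refine hkey' _ (key K hK _ s hs hdsq (by linarith) (by linarith) GK (filter_subset _ _)
      (fun p hp => ?_) (by omega)) (by omega)
    obtain ⟨hpG, hx⟩ := mem_filter.mp hp
    exact ⟨fun h' => (mem_filter.mp hpG).2 (h'.trans ⟨3, by ring⟩), hx⟩
  · refine hkey' _ (key K' hK' _ y hy hns hle hge GK' (filter_subset _ _)
      (fun p hp => ?_) (by omega)) hrefl.1
    obtain ⟨hpG, hx⟩ := mem_filter.mp hp
    exact ⟨fun h' => (mem_filter.mp hpG).2 (h'.trans ⟨-1, by ring⟩), hx⟩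

end FA.ThreeTorsionBound
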