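import Fermat.Agent.BrumerSilverman.Field
import Fermat.Agent.EllenbergVenkatesh.Generator
import Fermat.Agent.ThreeTorsion.Fields

/-!
# The twin field and its split primes

A quadratic field `K` of discriminant `d` has a square root of `d`; the field of a square root of
`-3 d` has a discriminant comparable to `d`; a prime `p ≡ 2 (mod 3)` not dividing `6 d` splits in
exactly one of the two.
-/

set_option autoImplicit false
set_option linter.style.haveILetI false

noncomputable section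

open NumberField Module Finset
open FA.BrumerSilverman
open scoped Classical

namespace FA.ThreeTorsionBound

variable {K : Type} [Field K] [NumberField K]

/-- A square root of the discriminant. -/
theorem exists_sqrt_discr (hK : finrank ℚ K = 2) :
    ¬ IsSquare (discr K) ∧ ∃ s : K, s ^ 2 = (discr K : K) := by
  obtain ⟨Q⟩ := FA.ThreeTorsion.exists_qdata hK
  have hd : Q.disc = discr K := Q.disc_eq_discr
  have hsq : (2 * Q.omega - (Q.t : 𝓞 K)) ^ 2 = ((discr K : ℤ) : 𝓞 K) := by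
    rw [← hd, FA.ThreeTorsion.QData.disc]
    push_cast
    linear_combination 4 * Q.omega_sq
  refine ⟨?_, ((2 * Q.omega - (Q.t : 𝓞 K) : 𝓞 K) : K),
    by simpa using congrArg (fun r : 𝓞 K => (r : K)) hsq⟩
  rintro ⟨r, hr⟩
  have h2 : (2 * Q.omega - (Q.t : 𝓞 K)) ^ 2 = (r : 𝓞 K) ^ 2 := by
    rw [hsq, hr]; push_cast; ring
  rcases sq_eq_sq_iff_eq_or_eq_neg.1 h2 with e | e
  · exact absurd ((Q.coeff_of_eq (x := 0) (a := -Q.t - r) (c := 2) (by
      push_cast; linear_combination -e)).2.symm.trans (by simpa using Q.oc_intCast 0))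
      (by norm_num)
  · exact absurd ((Q.coeff_of_eq (x := 0) (a := -Q.t + r) (c := 2) (by
      push_cast; linear_combination -e)).2.symm.trans (by simpa using Q.oc_intCast 0))
      (by norm_num)

/-- Two square roots of non-squares differ by a rational factor. -/
theorem exists_rat_factor (hK : finrank ℚ K = 2) {a b : ℚ} (ha : ¬ IsSquare a)
    (hb : ¬ IsSquare b) {s t : K} (hs : s ^ 2 = (a : K)) (ht : t ^ 2 = (b : K)) :
    ∃ r : ℚ, r ≠ 0 ∧ b = r ^ 2 * a := by
  obtain ⟨w, hw⟩ := (toField_bijective hK ha s hs).2 t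
  have e : w ^ 2 = FA.MordellAverage.ratS a b := (toField_bijective hK ha s hs).1 (by
    rw [map_pow, hw, ht, toField_apply]
    simp)
  have hre := congrArg QuadraticAlgebra.re e
  have him := congrArg QuadraticAlgebra.im e
  simp [pow_two] at hre him
  rcases mul_eq_zero.mp (show w.re * w.im = 0 by linear_combination him / 2) with h | h
  · refine ⟨w.im, fun h0 => hb ?_, ?_⟩
    · rw [h, h0] at hre
      simp at hre
      exact ⟨0, by rw [← hre]; ring⟩
    · rw [h] at hre
      linear_combination -hre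
  · exact absurd ⟨w.re, by rw [h] at hre; linear_combination -hre⟩ hb

/-- Only `ℚ(√-3)` has `-3 d` a square. -/
theorem natAbs_discr_le_of_isSquare (hK : finrank ℚ K = 2)
    (h : IsSquare (-3 * discr K)) : (discr K).natAbs ≤ 24 := by
  obtain ⟨hd, s, hs⟩ := exists_sqrt_discr hK
  obtain ⟨r, hr⟩ := h
  have hr0 : r ≠ 0 := by
    rintro rfl
    simp [discr_ne_zero K] at hr
  have hrK : (r : K) ≠ 0 := Int.cast_ne_zero.mpr hr0
  have hneg : ¬ IsSquare (-3 : ℤ) := fun h => by have := h.nonneg; norm_num at this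
  have hS : ((3 : K) * s / r) ^ 2 = ((-3 : ℤ) : K) := by
    rw [div_pow, mul_pow, hs, div_eq_iff (pow_ne_zero 2 hrK)]
    have := congrArg (fun z : ℤ => (z : K)) hr
    push_cast at this ⊢
    linear_combination -3 * this
  refine (natAbs_discr_le hK (by norm_num) hneg _ hS).trans ?_
  have h6 : supportProd (-3) = 6 := by
    show (∏ p ∈ Nat.primeFactors 18, p) = 6
    rw [show (18 : ℕ) = 2 * 3 ^ 2 by norm_num, Nat.primeFactors_mul (by norm_num) (by norm_num),
      Nat.prime_two.primeFactors, Nat.primeFactors_prime_pow (by norm_num) Nat.prime_three]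
    rfl
  rw [h6]

/-- **The twin field has a discriminant of the same size.** -/
theorem twin_discr {K' : Type} [Field K'] [NumberField K'] (hK : finrank ℚ K = 2)
    (hK' : finrank ℚ K' = 2) (hns : ¬ IsSquare (-3 * discr K)) {y : K'}
    (hy : y ^ 2 = ((-3 * discr K : ℤ) : K')) :
    ((discr K').natAbs ≤ 72 * (discr K).natAbs ∧ (discr K).natAbs ≤ 72 * (discr K').natAbs) := by
  obtain ⟨hd, s, hs⟩ := exists_sqrt_discr hK
  obtain ⟨hd', s', hs'⟩ := exists_sqrt_discr hK'
  have key : ∀ {F : Type} [Field F] [NumberField F], finrank ℚ F = 2 → ∀ {k : ℤ}, k ≠ 0 →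
      ¬ IsSquare (-3 * k) → ∀ {z : F}, z ^ 2 = ((-3 * k : ℤ) : F) →
      (discr F).natAbs ≤ 72 * k.natAbs := by
    intro F _ _ hF k hk hsq z hz
    refine (natAbs_discr_le hF (mul_ne_zero (by norm_num) hk) hsq z hz).trans ?_
    have h : supportProd (-3 * k) ≤ (6 * (-3 * k)).natAbs :=
      Nat.le_of_dvd (Int.natAbs_pos.mpr (mul_ne_zero (by norm_num)
        (mul_ne_zero (by norm_num) hk))) (Nat.prod_primeFactors_dvd _)
    rw [Int.natAbs_mul, Int.natAbs_mul, show (6 : ℤ).natAbs = 6 from rfl,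
      show (-3 : ℤ).natAbs = 3 from rfl] at h
    omega
  refine ⟨key hK' (discr_ne_zero K) hns hy, ?_⟩
  obtain ⟨r, hr0, hr⟩ := exists_rat_factor hK'
    (a := ((discr K' : ℤ) : ℚ)) (b := ((-3 * discr K : ℤ) : ℚ))
    (fun h => hd' (Rat.isSquare_intCast_iff.mp h))
    (fun h => hns (Rat.isSquare_intCast_iff.mp h)) (s := s') (t := y) (by simpa using hs')
    (by simpa using hy)
  have hr' : -3 * (discr K : ℚ) = r ^ 2 * (discr K' : ℚ) := by simpa using hr
  refine key hK (discr_ne_zero K') (fun h => hd ?_) (z := 3 * s / (r : K)) ?_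
  · obtain ⟨u, hu⟩ := h
    refine Rat.isSquare_intCast_iff.mp ⟨r * u / 3, ?_⟩
    have hu' : -3 * (discr K' : ℚ) = u * u := by exact_mod_cast hu
    linear_combination -hr' / 3 + r ^ 2 * hu' / 9
  · have hrK : (r : K) ≠ 0 := Rat.cast_ne_zero.mpr hr0
    rw [div_pow, mul_pow, hs, div_eq_iff (pow_ne_zero 2 hrK)]
    have := congrArg (fun z : ℚ => (z : K)) hr'
    push_cast at this ⊢
    linear_combination -3 * this

/-- **A split prime.** -/
theorem exists_split_prime (hK : finrank ℚ K = 2) {m : ℤ} {p : ℕ} (hp : p.Prime)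
    (hpm : ¬ (p : ℤ) ∣ 2 * m) (hsq : ¬ IsSquare m) {x : ℤ} (hx : (p : ℤ) ∣ x ^ 2 - m) {S : K}
    (hS : S ^ 2 = (m : K)) :
    ∃ P : Ideal (𝓞 K), EllenbergVenkatesh.IsSplitPrime P ∧ Ideal.absNorm P = p := by
  have hpi : Prime (p : ℤ) := Nat.prime_iff_prime_int.1 hp
  have hint : IsIntegral ℤ S :=
    IsIntegral.of_pow two_pos (hS ▸ (isIntegral_algebraMap (R := ℤ) (x := m)))
  set σ : 𝓞 K := ⟨S, hint⟩
  have hσ : σ ^ 2 = (m : 𝓞 K) := RingOfIntegers.ext (by simpa [σ] using hS)
  obtain ⟨q, hq⟩ := hx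
  have hq' : (x : 𝓞 K) ^ 2 - (m : 𝓞 K) = (p : 𝓞 K) * q := by
    have := congrArg (fun z : ℤ => (z : 𝓞 K)) hq
    push_cast at this
    exact this
  have h2x : IsCoprime (2 * x) (p : ℤ) := by
    refine ((hpi.coprime_iff_not_dvd).mpr fun h => ?_).symm
    rcases hpi.dvd_mul.mp h with h | h
    · exact hpm (h.mul_right m)
    · refine hpm (Dvd.dvd.mul_left ?_ 2)
      rw [show m = x ^ 2 - (p : ℤ) * q by linarith]
      exact dvd_sub (dvd_pow h two_ne_zero) (dvd_mul_right _ _)
  have hnorm : Ideal.absNorm (Ideal.span {(p : 𝓞 K)}) = p ^ 2 := by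
    rw [Ideal.absNorm_span_singleton, show (p : 𝓞 K) = algebraMap ℤ (𝓞 K) p by simp,
      Algebra.norm_algebraMap, RingOfIntegers.rank, hK, Int.natAbs_pow, Int.natAbs_natCast]
  -- neither root of `m` modulo `p` is congruent to `σ`
  have hnot : ∀ ε : ℤ, ε = 1 ∨ ε = -1 →
      σ - (ε : 𝓞 K) * x ∉ Ideal.span {(p : 𝓞 K)} := by
    intro ε hε h
    obtain ⟨c, hc⟩ := Ideal.mem_span_singleton'.mp h
    -- the trace
    have hc' : (c : K) * (p : K) = S - (ε : K) * (x : K) := by
      have := congrArg (fun r : 𝓞 K => (r : K)) hc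
      simpa [σ] using this
    have hsq' : ¬ IsSquare (m : ℚ) := fun h => hsq (Rat.isSquare_intCast_iff.mp h)
    have ht := congrArg (Algebra.trace ℚ K) hc'
    rw [map_sub, trace_root hK hsq' S (by simpa using hS), zero_sub,
      show (ε : K) * (x : K) = algebraMap ℚ K ((ε * x : ℤ) : ℚ) by simp,
      Algebra.trace_algebraMap, hK, mul_comm, show (p : K) * (c : K) = (p : ℚ) • (c : K) by
        rw [Rat.smul_def]; simp, map_smul, smul_eq_mul,
      ← Algebra.coe_trace_int] at ht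
    simp only [nsmul_eq_mul] at ht
    set T := Algebra.trace ℤ (𝓞 K) c
    have ht' : (p : ℤ) * T = -(2 * (ε * x)) := by
      have : ((p : ℤ) * T : ℚ) = ((-(2 * (ε * x)) : ℤ) : ℚ) := by push_cast at ht ⊢; linarith
      exact_mod_cast this
    have : (p : ℤ) ∣ 2 * x := by
      rcases hε with rfl | rfl
      · exact ⟨-T, by linarith⟩
      · exact ⟨T, by linarith⟩
    exact hpi.not_isUnit (h2x.isUnit_of_dvd' this dvd_rfl)
  have hm1 : σ - x ∉ Ideal.span {(p : 𝓞 K)} := by simpa using hnot 1 (Or.inl rfl)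
  -- the ideal `(p, σ - x)` is proper
  set I : Ideal (𝓞 K) := Ideal.span {(p : 𝓞 K), σ - x}
  have hI : I ≠ ⊤ := by
    intro h
    obtain ⟨a, b, hab⟩ := Ideal.mem_span_pair.mp ((Ideal.eq_top_iff_one I).mp h)
    refine hnot (-1) (Or.inr rfl) (Ideal.mem_span_singleton'.mpr ⟨a * (σ + x) - b * q, ?_⟩)
    push_cast
    linear_combination (σ + x) * hab - b * hσ + b * hq'
  obtain ⟨P, hPmax, hIP⟩ := Ideal.exists_le_maximal I hI
  have hpP : Ideal.span {(p : 𝓞 K)} ≤ P :=
    (Ideal.span_singleton_le_iff_mem _).mpr (hIP (Ideal.subset_span (Set.mem_insert _ _)))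
  have hxP : σ - x ∈ P := hIP (Ideal.subset_span (Set.mem_insert_of_mem _ rfl))
  obtain ⟨J, hJ⟩ := Ideal.dvd_iff_le.mpr hpP
  have hmul := congrArg Ideal.absNorm hJ
  rw [hnorm, map_mul] at hmul
  have hP1 : Ideal.absNorm P ≠ 1 := fun h => hPmax.ne_top (Ideal.absNorm_eq_one_iff.mp h)
  have hPp : Ideal.absNorm P = p := by
    obtain ⟨i, hi, hPi⟩ := (Nat.dvd_prime_pow hp).mp ⟨_, hmul⟩
    interval_cases i
    · exact absurd (hPi.trans (pow_zero p)) hP1
    · simpa using hPi
    · rw [hPi] at hmul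
      have hJ1 : Ideal.absNorm J = 1 :=
        mul_left_cancel₀ (pow_ne_zero 2 hp.ne_zero) (hmul.symm.trans (mul_one _).symm)
      rw [Ideal.absNorm_eq_one_iff.mp hJ1, Ideal.mul_top] at hJ
      exact absurd (hJ ▸ hxP) hm1
  refine ⟨P, ⟨by rw [hPp]; exact hp, fun h => ?_⟩, hPp⟩
  rw [hPp] at h
  obtain ⟨J', hJ'⟩ := h
  have hmul' := congrArg Ideal.absNorm hJ'
  rw [hnorm, map_mul, map_pow, hPp] at hmul'
  have hJ1' : Ideal.absNorm J' = 1 :=
    mul_left_cancel₀ (pow_ne_zero 2 hp.ne_zero) (hmul'.symm.trans (mul_one _).symm)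
  rw [Ideal.absNorm_eq_one_iff.mp hJ1', Ideal.mul_top] at hJ'
  have h2 : (σ - x) ^ 2 ∈ Ideal.span {(p : 𝓞 K)} := hJ' ▸ Ideal.pow_mem_pow hxP 2
  obtain ⟨e, he⟩ := Ideal.mem_span_singleton'.mp h2
  obtain ⟨a, b, hab⟩ := h2x.map (Int.castRingHom (𝓞 K))
  refine hm1 (Ideal.mem_span_singleton'.mpr ⟨a * (-q - e) + b * (σ - x), ?_⟩)
  simp only [map_mul, map_ofNat, eq_intCast, map_natCast] at hab
  linear_combination (σ - x) * hab - a * hσ + a * hq' - a * he

end FA.ThreeTorsionBound
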